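/-
S44, block V (architect helper104), `NotE1/Ladder.lean`: the ladder polynomials of the nodal cubic
`Y ^ 2 + a₁ X Y = X ^ 3 + a₂ X ^ 2` evaluated at `x = b t / (1 - t) ^ 2`.
-/
import Fermat.Agent.S13.Ladder

set_option autoImplicit false

noncomputable section

namespace Fermat.Agent.S44.V

open Polynomial Fermat.Agent.S13 in
theorem lad_eval_nodal {κ : Type*} [Field κ] (b t : κ) (hb : b ≠ 0) (ht0 : t ≠ 0) (ht1 : t ≠ 1)
    (n : ℕ) : ∃ D : κ, D ≠ 0 ∧ (ladF b 0 n).eval (b * t / (1 - t) ^ 2) = b * t ^ n * D ∧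
      (ladG b 0 n).eval (b * t / (1 - t) ^ 2) = (1 - t ^ n) ^ 2 * D := by
  have h1t : (1 - t) ≠ 0 := sub_ne_zero.2 (Ne.symm ht1)
  have h1t2 : (1 - t) ^ 2 ≠ 0 := pow_ne_zero 2 h1t
  obtain ⟨x, hxdef⟩ : ∃ x : κ, x = b * t / (1 - t) ^ 2 := ⟨_, rfl⟩
  have hx : x * (1 - t) ^ 2 = b * t := by rw [hxdef, div_mul_cancel₀ _ h1t2]
  rw [← hxdef]
  induction n using lad_induction with
  | h0 =>
    refine ⟨b⁻¹, inv_ne_zero hb, ?_, ?_⟩
    · rw [ladF_zero, eval_one, pow_zero, mul_one, mul_inv_cancel₀ hb]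
    · rw [ladG_zero, eval_zero, pow_zero, sub_self]
      ring
  | h1 =>
    refine ⟨((1 - t) ^ 2)⁻¹, inv_ne_zero h1t2, ?_, ?_⟩
    · rw [ladF_one, eval_X, pow_one, hxdef, div_eq_mul_inv]
    · rw [ladG_one, eval_one, pow_one, mul_inv_cancel₀ h1t2]
  | hd n _ ih =>
    obtain ⟨D, hD, hF, hG⟩ := ih
    refine ⟨b ^ 3 * t ^ (2 * n) * D ^ 4,
      mul_ne_zero (mul_ne_zero (pow_ne_zero _ hb) (pow_ne_zero _ ht0)) (pow_ne_zero _ hD), ?_, ?_⟩
    · rw [ladF_two_mul]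
      simp only [eval_pow, eval_sub, eval_mul, eval_C, hF, hG]
      ring
    · rw [ladG_two_mul]
      simp only [eval_pow, eval_add, eval_mul, eval_C, eval_ofNat, hF, hG]
      ring
  | ha n _ ih ih' =>
    obtain ⟨D, hD, hF, hG⟩ := ih
    obtain ⟨D', hD', hF', hG'⟩ := ih'
    have hH : (ladH b 0 n).eval x =
        (1 - t) * (b * t ^ n * D * D' * (1 - t ^ (2 * n + 1))) := by
      rw [ladH]
      simp only [eval_sub, eval_mul, hF, hG, hF', hG']
      ring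
    have hxH : x * (ladH b 0 n).eval x ^ 2 =
        b * t * (b * t ^ n * D * D' * (1 - t ^ (2 * n + 1))) ^ 2 := by
      rw [hH, mul_pow, ← mul_assoc, hx]
    refine ⟨b ^ 2 * t ^ (2 * n) * (1 - t) ^ 2 * D ^ 2 * D' ^ 2,
      mul_ne_zero (mul_ne_zero (mul_ne_zero (mul_ne_zero (pow_ne_zero _ hb) (pow_ne_zero _ ht0))
        h1t2) (pow_ne_zero _ hD)) (pow_ne_zero _ hD'), ?_, ?_⟩
    · rw [ladF_two_mul_add_one]
      simp only [eval_pow, eval_add, eval_sub, eval_mul, eval_C, eval_ofNat, eval_X, hF, hG, hF',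
        hG', hxH]
      ring
    · rw [ladG_odd, eval_pow, hH]
      ring

open Polynomial Fermat.Agent.S13 in
theorem ladH_eval_ne_zero {κ : Type*} [Field κ] (b : κ) (hb : b ≠ 0) (h2 : (2 : κ) ≠ 0) (k : ℕ) :
    (ladH b 0 k).eval (-b / 4) ≠ 0 := by
  have hm1 : (-1 : κ) ≠ 1 := by
    intro h
    apply h2
    have : (2 : κ) = 1 - (-1) := by ring
    rw [this, h, sub_self]
  obtain ⟨D, hD, -, hG⟩ := lad_eval_nodal b (-1) hb (neg_ne_zero.2 one_ne_zero) hm1 (2 * k + 1)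
  have hx : b * (-1) / (1 - (-1)) ^ 2 = -b / 4 := by
    congr 1 <;> ring
  rw [hx, ladG_odd, eval_pow, Odd.neg_one_pow ⟨k, rfl⟩] at hG
  intro h0
  rw [h0] at hG
  have h4 : ((1 : κ) - (-1)) ^ 2 ≠ 0 := by
    have : ((1 : κ) - (-1)) = 2 := by ring
    rw [this]
    exact pow_ne_zero 2 h2
  exact mul_ne_zero h4 hD (by rw [← hG]; ring)

open Polynomial Fermat.Agent.S13 in
theorem Ladder_ladF_eval_zero {κ : Type*} [Field κ] (b : κ) (n : ℕ) :
    0 < n → (ladF b 0 n).eval 0 = 0 := by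
  induction n using lad_induction with
  | h0 => intro h; exact absurd h (lt_irrefl 0)
  | h1 => intro _; rw [ladF_one, eval_X]
  | hd n hn ih =>
    intro _
    rw [ladF_two_mul]
    simp only [eval_pow, eval_sub, eval_mul, eval_C, ih hn]
    ring
  | ha n hn ih _ =>
    intro _
    rw [ladF_two_mul_add_one]
    simp only [eval_pow, eval_add, eval_sub, eval_mul, eval_C, eval_ofNat, eval_X, ih hn]
    ring

open Polynomial Fermat.Agent.S13 in
theorem ladH_eval_zero {κ : Type*} [Field κ] (b : κ) (k : ℕ) (hk : 0 < k) :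
    (ladH b 0 k).eval 0 = 0 := by
  rw [ladH, eval_sub, eval_mul, eval_mul, Ladder_ladF_eval_zero b k hk,
    Ladder_ladF_eval_zero b (k + 1) (Nat.succ_pos k)]
  ring

end Fermat.Agent.S44.V

end
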