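/-
S44, block V, node B1b (helper50): multiplicative reduction: not all of `E[2k+1]` lies in the kernel
of reduction.
-/
import Fermat.Agent.S44.V.NotE1.Ladder
import Fermat.Agent.S13.NewtonPoly
import Fermat.Agent.S13.Ladder

set_option autoImplicit false
set_option linter.unusedVariables false

noncomputable section

namespace Fermat.Agent.S44.V

open Polynomial Fermat.Agent.S13

/-- A polynomial with strictly dominant constant coefficient has constant valuation on the unit
disc. -/
theorem model_val_eval_of_constDom {K : Type*} [Field K] {Γ₀ : Type*}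
    [LinearOrderedCommGroupWithZero Γ₀] {v : Valuation K Γ₀} {f : K[X]} (hf : ConstDom v f)
    {x : K} (hx : v x ≤ 1) : v (f.eval x) = v (f.coeff 0) := by
  rw [eval_eq_sum_range, Finset.sum_range_succ', pow_zero, mul_one, add_comm]
  apply Valuation.map_add_eq_of_lt_left
  apply Valuation.map_sum_lt v ((Valuation.ne_zero_iff v).2 hf.1)
  intro i _
  rw [map_mul, map_pow]
  calc v (f.coeff (i + 1)) * v x ^ (i + 1) ≤ v (f.coeff (i + 1)) * 1 :=
        mul_le_mul_right (pow_le_one' hx _) _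
    _ < v (f.coeff 0) := by rw [mul_one]; exact hf.2 _ (Nat.succ_pos i)

/-- The statement, with the two facts on the nodal ladder as hypotheses. -/
theorem exists_torsion_not_inE1_of {K : Type*} [Field K] [IsAlgClosed K] [CharZero K]
    (A : ValuationSubring K) {a₁ a₂ a₄ : K} {G : Type*} [AddCommGroup G]
    (M : S13.Model K a₁ a₂ a₄ G) (h₁ : A.valuation a₁ ≤ 1) (h₂ : A.valuation a₂ ≤ 1)
    (h₄ : A.valuation a₄ < 1) (h₄0 : a₄ ≠ 0) (hb₂ : A.valuation (a₁ ^ 2 + 4 * a₂) = 1)
    (h2 : A.valuation (2 : K) = 1) {k : ℕ}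
    (hne : ∀ b : IsLocalRing.ResidueField A, b ≠ 0 → (2 : IsLocalRing.ResidueField A) ≠ 0 →
      (ladH b 0 k).eval (-b / 4) ≠ 0)
    (hzero : ∀ b : IsLocalRing.ResidueField A, (ladH b 0 k).eval 0 = 0) :
    ∃ Q : G, Q ≠ 0 ∧ (2 * k + 1) • Q = 0 ∧ ¬ M.InE1 A.valuation Q := by
  by_contra hcon
  push Not at hcon
  set b2 : K := a₁ ^ 2 + 4 * a₂ with hb2
  set H : K[X] := ladH b2 a₄ k with hH
  have hH0 : H ≠ 0 := by
    intro h0
    have h1 := ladH_coeff b2 a₄ k
    rw [← hH, h0, coeff_zero] at h1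
    exact (Nat.cast_ne_zero.2 (Nat.succ_ne_zero (2 * k))) h1.symm
  have hroots : ∀ r : K, H.eval r = 0 → 1 < A.valuation r := by
    intro r hr
    obtain ⟨Q, hQ, hX⟩ := M.exists_point_X r
    have hQ0 : (2 * k + 1) • Q = 0 := by
      rw [M.nsmul_eq_zero_iff h₄0 hQ, ladG_odd, eval_pow, hX, ← hb2, ← hH, hr]
      exact zero_pow two_ne_zero
    rcases hcon Q hQ hQ0 with h | h
    · exact absurd h hQ
    · rwa [hX] at h
  have hCD := constDom_of_roots hH0 hroots
  -- integral versions
  let b2' : A := ⟨b2, (A.valuation_le_one_iff _).1 hb₂.le⟩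
  let a4' : A := ⟨a₄, (A.valuation_le_one_iff _).1 h₄.le⟩
  set H' : A[X] := ladH b2' a4' k with hH'
  have hmap : H'.map A.subtype = H := ladH_map A.subtype b2' a4' k
  have hres4 : IsLocalRing.residue A a4' = 0 := by
    rw [IsLocalRing.residue_eq_zero_iff, A.valuation_lt_one_iff]
    exact h₄
  have hmapres : H'.map (IsLocalRing.residue A) = ladH (IsLocalRing.residue A b2') 0 k := by
    rw [hH', ladH_map, hres4]
  have heval : ∀ x : A, H.eval (x : K) = ((H'.eval x : A) : K) := by
    intro x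
    rw [← hmap, eval_map]
    exact eval₂_at_apply A.subtype x
  have hevalres : ∀ x : A, IsLocalRing.residue A (H'.eval x) =
      (ladH (IsLocalRing.residue A b2') 0 k).eval (IsLocalRing.residue A x) := by
    intro x
    rw [← hmapres, eval_map, eval₂_at_apply]
  have hunit : ∀ x : A, A.valuation (x : K) = 1 → IsLocalRing.residue A x ≠ 0 := by
    intro x hx h0
    rw [IsLocalRing.residue_eq_zero_iff, A.valuation_lt_one_iff, hx] at h0
    exact lt_irrefl _ h0
  have hb0 : IsLocalRing.residue A b2' ≠ 0 := hunit b2' hb₂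
  have h20 : (2 : IsLocalRing.ResidueField A) ≠ 0 := by
    have := hunit 2 (show A.valuation (2 : K) = 1 from h2)
    rwa [map_ofNat] at this
  -- the value at `0`
  have hv0 : A.valuation (H.eval 0) < 1 := by
    have h1 := hevalres 0
    rw [map_zero, hzero, IsLocalRing.residue_eq_zero_iff, A.valuation_lt_one_iff] at h1
    have h3 := heval 0
    rw [ZeroMemClass.coe_zero] at h3
    rwa [h3]
  -- the value at `-b2 / 4`
  have h4v : A.valuation (4 : K) = 1 := by
    have : (4 : K) = 2 * 2 := by norm_num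
    rw [this, map_mul, h2, one_mul]
  have h4K : (4 : K) ≠ 0 := by norm_num
  have hx0v : A.valuation (-b2 / 4) = 1 := by
    rw [map_div₀, Valuation.map_neg, hb₂, h4v, div_one]
  let x0 : A := ⟨-b2 / 4, (A.valuation_le_one_iff _).1 hx0v.le⟩
  have hx0 : 4 * x0 = -b2' := by
    apply Subtype.ext
    show (4 : K) * (-b2 / 4) = -b2
    field_simp
  have h40 : (4 : IsLocalRing.ResidueField A) ≠ 0 := by
    have : (4 : IsLocalRing.ResidueField A) = 2 * 2 := by norm_num
    rw [this]
    exact mul_ne_zero h20 h20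
  have hx0res : IsLocalRing.residue A x0 = -IsLocalRing.residue A b2' / 4 := by
    have := congrArg (IsLocalRing.residue A) hx0
    rw [map_mul, map_neg, map_ofNat] at this
    rw [eq_div_iff h40, mul_comm]
    exact this
  have hv1 : ¬ A.valuation (H.eval (-b2 / 4)) < 1 := by
    intro hlt
    have h1 := hevalres x0
    rw [hx0res] at h1
    have h3 : H.eval (-b2 / 4) = ((H'.eval x0 : A) : K) := heval x0
    rw [h3, ← A.valuation_lt_one_iff, ← IsLocalRing.residue_eq_zero_iff, h1] at hlt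
    exact hne _ hb0 h20 hlt
  apply hv1
  rw [model_val_eval_of_constDom hCD hx0v.le,
    ← model_val_eval_of_constDom hCD (x := 0) (by rw [map_zero]; exact zero_le_one)]
  exact hv0

theorem exists_torsion_not_inE1 {K : Type*} [Field K] [IsAlgClosed K] [CharZero K]
    (A : ValuationSubring K) {a₁ a₂ a₄ : K} {G : Type*} [AddCommGroup G]
    (M : S13.Model K a₁ a₂ a₄ G) (h₁ : A.valuation a₁ ≤ 1) (h₂ : A.valuation a₂ ≤ 1)
    (h₄ : A.valuation a₄ < 1) (h₄0 : a₄ ≠ 0) (hb₂ : A.valuation (a₁ ^ 2 + 4 * a₂) = 1)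
    (h2 : A.valuation (2 : K) = 1) {k : ℕ} (hk : 0 < k) :
    ∃ Q : G, Q ≠ 0 ∧ (2 * k + 1) • Q = 0 ∧ ¬ M.InE1 A.valuation Q :=
  exists_torsion_not_inE1_of A M h₁ h₂ h₄ h₄0 hb₂ h2
    (fun b hb h20 => ladH_eval_ne_zero b hb h20 k) (fun b => ladH_eval_zero b k hk)

end Fermat.Agent.S44.V

end
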